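import Fermat.Agent.S17.H.Glue.Defs
import Fermat.Agent.S17.F.Basic
import Fermat.Agent.S17.F.Avoid
import Fermat.Agent.S17.W.FixedDiv
import Fermat.Agent.S17.W.OpenStab
import Fermat.Agent.S27.FibRam
import Fermat.Agent.S27.H.Rationality

/-!
# S17, route H, block GLUE: skeleton (owner helper261).  WIP file: statements only.

Every block below is ONE task; the target file of block `X` is `Fermat/Agent/S17/H/Glue/X.lean`, namespace
`Fermat.Agent.S17.H.Glue` (NOT `.WIP`), statements verbatim.  Definitions: `Glue/Defs.lean`.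
-/

set_option autoImplicit false

noncomputable section

open scoped Classical

namespace Fermat.Agent.S17.H.Glue.WIP

open AlgebraicCurve Fermat.Agent.S24.FF Fermat.Agent.S27 Fermat.Agent.S17

section Abstract

variable {K F : Type*} [Field K] [Field F] [Algebra K F] [IsAlgClosed K] [CharZero K] [IsFF1 K F]
  [NonConst K F] (P₀ : Place K F)

/-! ### Block `Basic` -/

theorem ord_le_zero {f : F} (hf : f ∈ Aff P₀) (h0 : f ≠ 0) : P₀.ord f ≤ 0 := sorry

theorem exists_const {f : F} (hf : f ∈ Aff P₀) (h : 0 ≤ P₀.ord f) :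
    ∃ c : K, f = algebraMap K F c := sorry

theorem exists_transcendental : ∃ t ∈ Aff P₀, Transcendental K t := sorry

theorem ord_neg_of_transcendental {t : F} (ht : t ∈ Aff P₀) (h : Transcendental K t) :
    P₀.ord t < 0 := sorry

theorem mem_Aff_iff_exists_mem_L {f : F} :
    f ∈ Aff P₀ ↔ ∃ n : ℕ, f ∈ riemannRochSpace (n • pt P₀) := sorry

/-- `L(n P₀ - D) ⊆ Aff P₀` for `D` effective -/
theorem mem_Aff_of_mem_L {f : F} {n : ℕ} {D : Divisor K F} (hD : 0 ≤ D)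
    (hf : f ∈ riemannRochSpace (n • pt P₀ - D)) : f ∈ Aff P₀ := sorry

theorem exists_isPole_of_le : ∃ n₀ : ℕ, ∀ n, n₀ ≤ n → IsPole P₀ n := sorry

/-! ### Block `Dedekind` -/

theorem mem_Aff_iff_isIntegral {t : F} (ht : t ∈ Aff P₀) (htr : Transcendental K t) (f : F) :
    f ∈ Aff P₀ ↔ IsIntegral (Algebra.adjoin K {t}) f := sorry

theorem isDedekindDomain_Aff : IsDedekindDomain (Aff P₀) := sorry

theorem isFractionRing_Aff : IsFractionRing (Aff P₀) F := sorry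

/-! ### Block `Points` -/

theorem exists_ptOf_eq (P : Pts P₀) : ∃ v : Place K F, ∃ hv : v ≠ P₀, ptOf P₀ v hv = P := sorry

theorem ptOf_injective {v w : Place K F} (hv : v ≠ P₀) (hw : w ≠ P₀)
    (h : ptOf P₀ v hv = ptOf P₀ w hw) : v = w := sorry

theorem placeOf_ne (P : Pts P₀) : placeOf P ≠ P₀ := sorry

theorem ev_placeOf (P : Pts P₀) (f : Aff P₀) : ev (placeOf P) (f : F) = P f := sorry

theorem placeOf_ptOf (v : Place K F) (hv : v ≠ P₀) : placeOf (ptOf P₀ v hv) = v := sorry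

theorem placeOf_injective : Function.Injective (placeOf : Pts P₀ → Place K F) := sorry

/-! ### Block `DivE` -/

theorem divE_apply (E : Finset (Pts P₀)) (v : Place K F) :
    divE E v = if ∃ P ∈ E, placeOf P = v then 1 else 0 := sorry

theorem divE_base (E : Finset (Pts P₀)) : divE E P₀ = 0 := sorry

theorem divE_nonneg (E : Finset (Pts P₀)) : 0 ≤ divE E := sorry

theorem degree_divE (E : Finset (Pts P₀)) : Divisor.degree (divE E) = E.card := sorry

theorem divE_union (E E' : Finset (Pts P₀)) (h : Disjoint E E') :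
    divE (E ∪ E') = divE E + divE E' := sorry

theorem divE_injective : Function.Injective (divE : Finset (Pts P₀) → Divisor K F) := sorry

theorem exists_divE_eq (D : Divisor K F) (hD : ∀ v, D v = 0 ∨ D v = 1) (h0 : D P₀ = 0) :
    ∃ E : Finset (Pts P₀), divE E = D := sorry

/-! ### Block `Ideals` -/

theorem mem_span_mul_idl_iff (s : Aff P₀) (hs : s ≠ 0) (E : Finset (Pts P₀)) (f : Aff P₀) :
    f ∈ Ideal.span {s} * idl E ↔
      f = 0 ∨ ∀ v : Place K F, v ≠ P₀ → v.ord (s : F) + divE E v ≤ v.ord (f : F) := sorry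

theorem span_mul_idl_eq_iff (s s' : Aff P₀) (hs : s ≠ 0) (hs' : s' ≠ 0) (E E' : Finset (Pts P₀)) :
    Ideal.span {s'} * idl E = Ideal.span {s} * idl E' ↔
      ∀ v : Place K F, v ≠ P₀ → v.ord (s' : F) + divE E v = v.ord (s : F) + divE E' v := sorry

theorem span_mul_idl_eq_iff_isDivOf (s s' : Aff P₀) (hs : s ≠ 0) (hs' : s' ≠ 0)
    (E E' : Finset (Pts P₀)) :
    Ideal.span {s'} * idl E = Ideal.span {s} * idl E' ↔
      IsDivOf ((divE E' - E'.card • pt P₀) - (divE E - E.card • pt P₀)) ((s' : F) / (s : F)) :=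
  sorry

/-! ### Block `Nth` (Mathlib only) -/

theorem exists_nth_eq_add (S : ℕ → Prop) (hS : {n | ¬ S n}.Finite) :
    ∃ g i₀ : ℕ, ∀ i, i₀ ≤ i → Nat.nth S i = i + g := sorry

/-! ### Block `OrdBasis` -/

theorem linearIndependent_of_ord (b : ℕ → Aff P₀) (ρ : ℕ → ℕ) (hρ : StrictMono ρ)
    (hb0 : ∀ i, b i ≠ 0) (hb : ∀ i, P₀.ord (b i : F) = -(ρ i : ℤ)) : LinearIndependent K b := sorry

theorem mem_span_of_ord (b : ℕ → Aff P₀) (ρ : ℕ → ℕ) (hρ : StrictMono ρ)
    (hb0 : ∀ i, b i ≠ 0) (hb : ∀ i, P₀.ord (b i : F) = -(ρ i : ℤ))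
    (hsurj : ∀ n, IsPole P₀ n → ∃ i, ρ i = n) (k : ℕ) (f : Aff P₀)
    (hf : f = 0 ∨ -(ρ k : ℤ) < P₀.ord (f : F)) :
    f ∈ Submodule.span K (b '' {l | l < k}) := sorry

theorem span_eq_top_of_ord (b : ℕ → Aff P₀) (ρ : ℕ → ℕ) (hρ : StrictMono ρ)
    (hb0 : ∀ i, b i ≠ 0) (hb : ∀ i, P₀.ord (b i : F) = -(ρ i : ℤ))
    (hsurj : ∀ n, IsPole P₀ n → ∃ i, ρ i = n) : Submodule.span K (Set.range b) = ⊤ := sorry

/-! ### Block `Pencil` -/

theorem finite_bad_pencil (D : Divisor K F) (hD : 1 ≤ Divisor.degree D) (s₁ s₂ : F)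
    (h₁ : s₁ ∈ riemannRochSpace D) (h₂ : s₂ ∈ riemannRochSpace D) (h₁0 : s₁ ≠ 0) (h₂0 : s₂ ≠ 0)
    (hp : ∀ P : Place K F, P.ord s₁ = - D P ∨ P.ord s₂ = - D P) (T : Finset (Place K F)) :
    {c : K | ¬ (s₂ - algebraMap K F c * s₁ ≠ 0 ∧ ∀ v : Place K F,
      v.ord (s₂ - algebraMap K F c * s₁) + D v = 0 ∨
        (v.ord (s₂ - algebraMap K F c * s₁) + D v = 1 ∧ v ∉ T))}.Finite := sorry

end Abstract

section Modular

open ModularCurve Fermat.Agent.S24 Fermat.Agent.GAL.E Fermat.Agent.S17.W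

variable (N : ℕ) [NeZero N]

/-! ### Block `Gal` -/

theorem coeff_galF (σ : GQ) (f : FN N) (n : ℤ) :
    (galF N σ f : LaurentSeries Kbar).coeff n = σ ((f : LaurentSeries Kbar).coeff n) := sorry

theorem ord_gal (σ : GQ) (v : Place Kbar (FN N)) (f : FN N) :
    (gal N σ • v).ord (galF N σ f) = v.ord f := sorry

theorem galF_mem_Aff (σ : GQ) {f : FN N} (hf : f ∈ Aff (cusp N)) :
    galF N σ f ∈ Aff (cusp N) := sorry

theorem ev_gal (σ : GQ) (v : Place Kbar (FN N)) (f : FN N) :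
    ev (gal N σ • v) (galF N σ f) = σ (ev v f) := sorry

theorem galF_mem_L (σ : GQ) {D : Divisor Kbar (FN N)} {f : FN N} (hf : f ∈ riemannRochSpace D) :
    galF N σ f ∈ riemannRochSpace (gal N σ • D) := sorry

theorem isDivOf_gal (σ : GQ) {D : Divisor Kbar (FN N)} {f : FN N} (hf : IsDivOf D f) :
    IsDivOf (gal N σ • D) (galF N σ f) := sorry

theorem finite_orbit (f : FN N) : (Set.range fun σ : GQ => galF N σ f).Finite := sorry

theorem mem_range_of_forall_fixed (c : Kbar) (h : ∀ σ : GQ, σ c = c) :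
    c ∈ Set.range (algebraMap ℚ Kbar) := sorry

/-! ### Block `Avg` -/

theorem exists_isFix_monic (n : ℕ) (h : IsPole (cusp N) n) :
    ∃ f ∈ Aff (cusp N), IsFix N f ∧ (f : LaurentSeries Kbar).order = -(n : ℤ) ∧
      (f : LaurentSeries Kbar).coeff (-(n : ℤ)) = 1 := sorry

/-! ### Block `Rat` -/

theorem isRat_iff (C : WCurve (AN N)) (hC : ∀ i, IsFix N (C.b i : FN N)) (f : AN N) :
    C.IsRat f ↔ IsFix N (f : FN N) := sorry

/-! ### Block `Curve` -/

theorem exists_wcurve : ∃ C : WCurve (AN N), ∀ i, IsFix N (C.b i : FN N) := sorry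

/-! ### Block `Stable` -/

theorem placeOf_eq_gal_smul_iff (C : WCurve (AN N)) (hC : ∀ i, IsFix N (C.b i : FN N)) (σ : GQ)
    (P P' : Pt (AN N)) :
    (∀ i, P' (C.b i) = σ (P (C.b i))) ↔ placeOf P' = gal N σ • placeOf P := sorry

theorem galStable_iff (C : WCurve (AN N)) (hC : ∀ i, IsFix N (C.b i : FN N))
    (E : Finset (Pt (AN N))) : C.GalStable E ↔ IsFixD N (divE E) := sorry

/-! ### Block `Cl` -/

theorem clsE_mem (E : Finset (Pt (AN N))) (h : IsFixD N (divE E)) :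
    clsE N E ∈ FixedPoints.addSubgroup ((AlgebraicClosure ℚ) ≃ₐ[ℚ] (AlgebraicClosure ℚ))
      (JZero N) := sorry

theorem coe_cl (E : Finset (Pt (AN N))) (h : IsFixD N (divE E)) :
    (cl N E : JZero N) = clsE N E := sorry

theorem cl_union (E E' : Finset (Pt (AN N))) (hE : IsFixD N (divE E)) (hE' : IsFixD N (divE E'))
    (hd : Disjoint E E') : cl N (E ∪ E') = cl N E + cl N E' := sorry

/-! ### Block `FixFun` -/

theorem exists_isFix_of_isFixD (D : Divisor Kbar (FN N)) (hD : IsFixD N D) (f : FN N)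
    (hf : IsDivOf D f) : ∃ f' : FN N, IsFix N f' ∧ IsDivOf D f' := sorry

/-! ### Block `Descent` -/

theorem L_le_span_isFix (D : Divisor Kbar (FN N)) (hD : IsFixD N D) :
    riemannRochSpace D ≤ Submodule.span Kbar {h | h ∈ riemannRochSpace D ∧ IsFix N h} := sorry

/-! ### Block `Avoid` -/

theorem exists_isFix_avoid (D : Divisor Kbar (FN N)) (hD : IsFixD N D)
    (S : Finset (Submodule Kbar (FN N))) (hS : ∀ W ∈ S, ¬ riemannRochSpace D ≤ W) :
    ∃ f ∈ riemannRochSpace D, IsFix N f ∧ ∀ W ∈ S, f ∉ W := sorry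

theorem exists_isFix_pencil (D : Divisor Kbar (FN N)) (hD : IsFixD N D)
    (hdeg : (h1Bound Kbar (FN N) : ℤ) + 1 ≤ Divisor.degree D) :
    ∃ s₁ ∈ riemannRochSpace D, ∃ s₂ ∈ riemannRochSpace D, IsFix N s₁ ∧ IsFix N s₂ ∧ s₁ ≠ 0 ∧
      s₂ ≠ 0 ∧ ∀ P : Place Kbar (FN N), P.ord s₁ = - D P ∨ P.ord s₂ = - D P := sorry

/-! ### Block `Fraction` -/

theorem exists_isFix_fraction (f : FN N) (hf : IsFix N f) (hf0 : f ≠ 0) :
    ∃ s s' : AN N, IsFix N (s : FN N) ∧ IsFix N (s' : FN N) ∧ s ≠ 0 ∧ s' ≠ 0 ∧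
      f = (s' : FN N) / (s : FN N) := sorry

/-! ### Block `ClIff` -/

theorem cl_eq_iff (C : WCurve (AN N)) (hC : ∀ i, IsFix N (C.b i : FN N))
    (E E' : Finset (Pt (AN N))) (hE : C.GalStable E) (hE' : C.GalStable E') :
    cl N E = cl N E' ↔ ∃ s s' : AN N, C.IsRat s ∧ C.IsRat s' ∧ s ≠ 0 ∧ s' ≠ 0 ∧
      Ideal.span {s'} * idealOf E = Ideal.span {s} * idealOf E' := sorry

/-! ### Block `Moving` -/

theorem moving (C : WCurve (AN N)) (hC : ∀ i, IsFix N (C.b i : FN N)) :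
    ∃ r₀ : ℕ, ∀ r, r₀ ≤ r → ∀ (x : MW N) (T : Finset (Pt (AN N))),
      ∃ E, C.GalStable E ∧ E.card = r ∧ Disjoint E T ∧ cl N E = x := sorry

/-! ### Block `Main` (helper261) -/

theorem glue :
    ∃ (A : Type) (_ : CommRing A) (_ : Algebra Qb A) (_ : IsDedekindDomain A) (C : WCurve A)
      (cl : Finset (Pt A) → MW N) (r₀ : ℕ),
      (∀ E E', C.GalStable E → C.GalStable E' → Disjoint E E' → cl (E ∪ E') = cl E + cl E') ∧
      (∀ E E', C.GalStable E → C.GalStable E' → (cl E = cl E' ↔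
        ∃ s s' : A, C.IsRat s ∧ C.IsRat s' ∧ s ≠ 0 ∧ s' ≠ 0 ∧
          Ideal.span {s'} * idealOf E = Ideal.span {s} * idealOf E')) ∧
      (∀ r, r₀ ≤ r → ∀ (x : MW N) (T : Finset (Pt A)),
        ∃ E, C.GalStable E ∧ E.card = r ∧ Disjoint E T ∧ cl E = x) := by
  obtain ⟨C, hC⟩ := exists_wcurve N
  obtain ⟨r₀, hr₀⟩ := moving N C hC
  refine ⟨AN N, inferInstance, inferInstance, isDedekindDomain_Aff (cusp N), C, cl N, r₀, ?_, ?_,
    hr₀⟩
  · intro E E' hE hE' hd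
    exact cl_union N E E' ((galStable_iff N C hC E).mp hE) ((galStable_iff N C hC E').mp hE') hd
  · intro E E' hE hE'
    exact cl_eq_iff N C hC E E' hE hE'

end Modular

end Fermat.Agent.S17.H.Glue.WIP
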